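import Mathlib
import Fermat.Agent.LT.T6.H558.QuatSetSpec

/-!
# Row LT, tower T6, leaf T6.18i.6b.3 `QuatSubC558` (registry 1533): PROOF (helper560)

OFF-MAIN.  `quatSubC560 : H558.QuatSubC558` VERBATIM against `LT/T6/H558/QuatSetSpec.lean`
(helper558@66ec864fb, sha256 3a49f9f1), imports = Mathlib + the byte-identical closure of that file.

Proof (pure `2 × 2` algebra, no valuations).  `σ(δ₀) = δ₀`, `δ₀ σ(w) = w δ₀`, `δ₀² = z`, so
`N = N(w δ₀) = z w²`; `disc N = z² (tr w)² disc w`, and `disc N ≠ 0` because `N` is conjugate to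
the regular `i(γ)`; hence `tr w ≠ 0` and, by Cayley--Hamilton, `w = (z tr w)⁻¹ N + (det w / tr w)`
is a polynomial in `N`.  If `t⁻¹ (w δ₀) σ(t) = w δ₀` then `t` commutes with `N` (`σ² = 1`), so
`t` commutes with `w`, and `t⁻¹ δ₀ σ(t) = w⁻¹ (t⁻¹ (w δ₀) σ(t)) = δ₀`.
Only `IsCyclicData.fix_i` and `IsCyclicData.order` of the field data are used.
-/

set_option autoImplicit false

open scoped Matrix

noncomputable section

namespace Fermat.Agent.LT.T6.H560

open Fermat.Agent.LT.T6 Fermat.Agent.LT.T6.H783 Fermat.Agent.LT.T6.H385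

section Algebra

variable {F : Type} [Field F]

/-- Cayley--Hamilton for `2 × 2` matrices. -/
theorem sq_eq_cayley560 (W : Matrix (Fin 2) (Fin 2) F) :
    W * W = W.trace • W - W.det • (1 : Matrix (Fin 2) (Fin 2) F) := by
  ext i j
  fin_cases i <;> fin_cases j <;>
    simp [Matrix.mul_apply, Fin.sum_univ_two, Matrix.trace_fin_two, Matrix.det_fin_two] <;> ring

/-- The discriminant of `c W²` is `c² (tr W)² disc W`. -/
theorem disc_smul_sq560 (c : F) (W : Matrix (Fin 2) (Fin 2) F) :
    (c • (W * W)).trace ^ 2 - 4 * (c • (W * W)).det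
      = c ^ 2 * W.trace ^ 2 * (W.trace ^ 2 - 4 * W.det) := by
  simp [Matrix.mul_apply, Fin.sum_univ_two, Matrix.trace_fin_two, Matrix.det_fin_two]
  ring

/-- A matrix which commutes with `c W²` commutes with `W`, if `c ≠ 0` and `tr W ≠ 0`. -/
theorem commute_of_commute_smul_sq560 {c : F} (hc : c ≠ 0) {W T : Matrix (Fin 2) (Fin 2) F}
    (htr : W.trace ≠ 0) (h : T * (c • (W * W)) = c • (W * W) * T) : T * W = W * T := by
  rw [sq_eq_cayley560 W] at h
  have h1 : (c * W.trace) • (T * W) = (c * W.trace) • (W * T) := by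
    have e1 : T * (c • (W.trace • W - W.det • (1 : Matrix (Fin 2) (Fin 2) F)))
        = (c * W.trace) • (T * W) - (c * W.det) • T := by
      rw [Matrix.mul_smul, Matrix.mul_sub, Matrix.mul_smul, Matrix.mul_smul, Matrix.mul_one,
        smul_sub, smul_smul, smul_smul]
    have e2 : c • (W.trace • W - W.det • (1 : Matrix (Fin 2) (Fin 2) F)) * T
        = (c * W.trace) • (W * T) - (c * W.det) • T := by
      rw [Matrix.smul_mul, Matrix.sub_mul, Matrix.smul_mul, Matrix.smul_mul, Matrix.one_mul,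
        smul_sub, smul_smul, smul_smul]
    rw [e1, e2] at h
    exact sub_left_injective h
  exact smul_right_injective _ (mul_ne_zero hc htr) h1

end Algebra

section Conj

variable {F : Type} [Field F]

/-- The discriminant is invariant under conjugation. -/
theorem disc_conj560 (c N : GL (Fin 2) F) : disc (c * N * c⁻¹) = disc N := by
  have h1 : ((c⁻¹ : GL (Fin 2) F) : Matrix (Fin 2) (Fin 2) F) * (c : Matrix (Fin 2) (Fin 2) F)
      = 1 := by
    rw [← Units.val_mul, inv_mul_cancel, Units.val_one]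
  have htr : ((c * N * c⁻¹ : GL (Fin 2) F) : Matrix (Fin 2) (Fin 2) F).trace
      = (N : Matrix (Fin 2) (Fin 2) F).trace := by
    rw [Units.val_mul, Units.val_mul, Matrix.trace_mul_comm, ← Matrix.mul_assoc, h1,
      Matrix.one_mul]
  have hdet : ((c * N * c⁻¹ : GL (Fin 2) F) : Matrix (Fin 2) (Fin 2) F).det
      = (N : Matrix (Fin 2) (Fin 2) F).det := by
    rw [Units.val_mul, Units.val_mul, Matrix.det_mul, Matrix.det_mul, mul_comm, ← mul_assoc,
      ← Matrix.det_mul, h1, Matrix.det_one, one_mul]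
  unfold disc
  rw [htr, hdet]

/-- The discriminant commutes with a homomorphism of fields. -/
theorem disc_map560 {F' : Type} [Field F'] (i : F →+* F') (γ : GL (Fin 2) F) :
    disc (Matrix.GeneralLinearGroup.map i γ) = i (disc γ) := by
  unfold disc
  simp only [Matrix.trace_fin_two, Matrix.det_fin_two, Matrix.GeneralLinearGroup.map_apply,
    map_sub, map_mul, map_pow, map_add, map_ofNat]

end Conj

/-- **T6.18i.6b.3** `QuatSubC558`: the twisted centraliser of `w δ₀` lies in `D^×`. -/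
theorem quatSubC560 : H558.QuatSubC558 := by
  intro k k' _ _ _ _ q e i s hQ z hz w δ₀ γ hδ₀ hw hγ hconj t ht
  have hcyc := hQ.ext.cyc
  have hδ₀' : (δ₀ : Matrix (Fin 2) (Fin 2) k') = !![0, i z; 1, 0] := hδ₀
  have hiz : i z ≠ 0 := (map_ne_zero i).2 hz
  -- `σ(δ₀) = δ₀`
  have hσδ : glAut s δ₀ = δ₀ := by
    apply Units.ext
    ext a b
    show (glAut s δ₀ : Matrix (Fin 2) (Fin 2) k') a b = (δ₀ : Matrix (Fin 2) (Fin 2) k') a b
    unfold glAut
    rw [Matrix.GeneralLinearGroup.map_apply, hδ₀']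
    fin_cases a <;> fin_cases b <;> simp [hcyc.fix_i]
  -- `σ² = 1`
  have hσσ : ∀ x : GL (Fin 2) k', glAut s (glAut s x) = x := by
    intro x
    apply Units.ext
    ext a b
    show (glAut s (glAut s x) : Matrix (Fin 2) (Fin 2) k') a b
      = (x : Matrix (Fin 2) (Fin 2) k') a b
    unfold glAut
    rw [Matrix.GeneralLinearGroup.map_apply, Matrix.GeneralLinearGroup.map_apply]
    have h := hcyc.order ((x : Matrix (Fin 2) (Fin 2) k') a b)
    rw [pow_two] at h
    exact h
  -- the twisted centraliser conditions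
  have hw' : δ₀ * glAut s w = w * δ₀ := by
    have h := congrArg (fun x => w * x) hw
    simp only [mul_assoc, mul_inv_cancel_left] at h
    exact h
  have ht' : w * δ₀ * glAut s t = t * (w * δ₀) := by
    have h := congrArg (fun x => t * x) ht
    simp only [mul_assoc, mul_inv_cancel_left] at h
    simp only [mul_assoc]
    exact h
  -- the norm
  have hNdef : twNorm s 2 (w * δ₀) = w * δ₀ * glAut s (w * δ₀) := by
    simp [twNorm, twN]
  have hN : twNorm s 2 (w * δ₀) = w * w * (δ₀ * δ₀) := by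
    rw [hNdef, map_mul, hσδ]
    calc w * δ₀ * (glAut s w * δ₀) = w * (δ₀ * glAut s w) * δ₀ := by simp only [mul_assoc]
      _ = w * (w * δ₀) * δ₀ := by rw [hw']
      _ = w * w * (δ₀ * δ₀) := by simp only [mul_assoc]
  have hσt : glAut s (w * δ₀) * t = glAut s t * glAut s (w * δ₀) := by
    have h := congrArg (glAut s) ht'
    rw [map_mul (glAut s) (w * δ₀) (glAut s t), hσσ, map_mul (glAut s) t (w * δ₀)] at h
    exact h
  have hNt : t * twNorm s 2 (w * δ₀) = twNorm s 2 (w * δ₀) * t := by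
    rw [hNdef]
    calc t * (w * δ₀ * glAut s (w * δ₀)) = t * (w * δ₀) * glAut s (w * δ₀) := by
          simp only [mul_assoc]
      _ = w * δ₀ * glAut s t * glAut s (w * δ₀) := by rw [ht']
      _ = w * δ₀ * (glAut s t * glAut s (w * δ₀)) := by simp only [mul_assoc]
      _ = w * δ₀ * (glAut s (w * δ₀) * t) := by rw [hσt]
      _ = w * δ₀ * glAut s (w * δ₀) * t := by simp only [mul_assoc]
  -- matrices
  have hδδ : (δ₀ : Matrix (Fin 2) (Fin 2) k') * (δ₀ : Matrix (Fin 2) (Fin 2) k')
      = (i z) • (1 : Matrix (Fin 2) (Fin 2) k') := by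
    rw [hδ₀']
    ext a b
    fin_cases a <;> fin_cases b <;> simp [Matrix.mul_apply, Fin.sum_univ_two]
  have hNmat : ((twNorm s 2 (w * δ₀) : GL (Fin 2) k') : Matrix (Fin 2) (Fin 2) k')
      = (i z) • ((w : Matrix (Fin 2) (Fin 2) k') * (w : Matrix (Fin 2) (Fin 2) k')) := by
    rw [hN, Units.val_mul, Units.val_mul, Units.val_mul, hδδ, Matrix.mul_smul, Matrix.mul_one]
  -- `N` is regular, so `tr w ≠ 0`
  have hdiscN : disc (twNorm s 2 (w * δ₀)) ≠ 0 := by
    obtain ⟨c, hc⟩ := isConj_iff.1 hconj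
    have h1 : disc (twNorm s 2 (w * δ₀)) = i (disc γ) := by
      rw [← disc_conj560 c, hc, disc_map560]
    rw [h1]
    exact (map_ne_zero i).2 hγ.ne_zero
  have htr : (w : Matrix (Fin 2) (Fin 2) k').trace ≠ 0 := by
    intro h0
    apply hdiscN
    unfold disc
    rw [hNmat, disc_smul_sq560, h0]
    ring
  -- `t` commutes with `w`
  have hcomm : t * w = w * t := by
    apply Units.ext
    rw [Units.val_mul, Units.val_mul]
    apply commute_of_commute_smul_sq560 hiz htr
    rw [← hNmat, ← Units.val_mul, ← Units.val_mul, hNt]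
  have hcomm' : t⁻¹ * w = w * t⁻¹ := by
    have h := congrArg (fun x => t⁻¹ * x * t⁻¹) hcomm
    simp only [mul_assoc, mul_inv_cancel, mul_one, inv_mul_cancel_left] at h
    exact h.symm
  -- conclusion
  show t⁻¹ * δ₀ * glAut s t = δ₀
  have h1 : w * (t⁻¹ * δ₀ * glAut s t) = w * δ₀ := by
    calc w * (t⁻¹ * δ₀ * glAut s t) = w * t⁻¹ * δ₀ * glAut s t := by simp only [mul_assoc]
      _ = t⁻¹ * w * δ₀ * glAut s t := by rw [hcomm']
      _ = t⁻¹ * (w * δ₀) * glAut s t := by simp only [mul_assoc]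
      _ = w * δ₀ := ht
  exact mul_left_cancel h1

end Fermat.Agent.LT.T6.H560

end
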